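import Fermat.Agent.S27.Dim.Spec
import Fermat.Agent.S25.Assembly.Final
import Fermat.Agent.S25.H927.Sep

/-!
# Row S27, block DIM, leaf PTS-DICT-A (helper446)

`ptsDictA k : Dim.Stmt.PtsDictA k` : for every `k`-algebra `A`, the `A`-points of the Jacobian
are the rigidifiable gluing data of degree zero over `A` up to isomorphism, compatibly with
base change; the zero section is the unit datum.

Formal from the S25 dictionary on main (`H505.dictSections`, `H505.dictGlue`, `H986.dictIso`,
`H505.dictBC`, `H566.dictUnit`, `Stmt.DictDeg` re-derived as in `S25/Assembly/Final.lean`) and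
the universal property `hrep.univ` of the representing object.

Reusable:
* `sectionsAddEquiv`, `corr_of_iso` : `Corr` is invariant under isomorphisms of the module;
* `dictDeg Ch : Stmt.DictDeg Ch` (unconditional);
* `nonempty_iso_zero` : the Poincaré bundle pulled back along the zero section over any base
  map `s = 𝟙` is trivial.
-/

set_option autoImplicit false
universe u
open CategoryTheory CategoryTheory.Limits AlgebraicGeometry AlgebraicGeometry.RelPicard
  NeronModelInfra GoodReductionJacobian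
open scoped TensorProduct

namespace Fermat.Agent.S27.H446

open Fermat.Agent.S25 Fermat.Agent.S27.Dim

noncomputable section

variable {k : Type u} [Field k] {C : Scheme.{u}} {c : C ⟶ Spec (CommRingCat.of k)}
  {ε : SchemeHomOver (𝟙 (Spec (CommRingCat.of k))) c}

/-! ## `Corr` is invariant under isomorphisms of the module -/

/-- The additive equivalence on sections induced by an isomorphism of modules. -/
def sectionsAddEquiv {X : Scheme.{u}} {L L' : X.Modules} (φ : L ≅ L') (V : X.Opens) :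
    Γ(L, V) ≃+ Γ(L', V) where
  toFun s := φ.hom.app V s
  invFun s := φ.inv.app V s
  left_inv s := by
    change φ.inv.app V (φ.hom.app V s) = s
    rw [← ConcreteCategory.comp_apply, ← Scheme.Modules.Hom.comp_app, Iso.hom_inv_id]
    rfl
  right_inv s := by
    change φ.hom.app V (φ.inv.app V s) = s
    rw [← ConcreteCategory.comp_apply, ← Scheme.Modules.Hom.comp_app, Iso.inv_hom_id]
    rfl
  map_add' s t := map_add _ s t

@[simp]
theorem sectionsAddEquiv_apply {X : Scheme.{u}} {L L' : X.Modules} (φ : L ≅ L') (V : X.Opens)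
    (s : Γ(L, V)) : sectionsAddEquiv φ V s = φ.hom.app V s := rfl

section CorrIso

variable (Ch : ChartOf c ε) {A : Type u} [CommRing A] [Algebra k A]

theorem isSectionsIso_of_iso {L L' : (pullback c (specStr k A)).Modules} (φ : L' ≅ L)
    (U : C.Opens) {B : Type u} [CommRing B] [Algebra k B] (i : Γ(C, U) ≃+* B)
    {N : Type u} [AddCommGroup N] [Module (A ⊗[k] B) N]
    (e : Γ(L, preimageOpen (c := c) A U) ≃+ N) (he : IsSectionsIso A L U i e) :
    IsSectionsIso A L' U i ((sectionsAddEquiv φ (preimageOpen (c := c) A U)).trans e) := by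
  refine ⟨fun a s => ?_, fun f s => ?_⟩
  · rw [AddEquiv.trans_apply, AddEquiv.trans_apply, sectionsAddEquiv_apply,
      sectionsAddEquiv_apply, Scheme.Modules.Hom.app_smul, he.1]
  · rw [AddEquiv.trans_apply, AddEquiv.trans_apply, sectionsAddEquiv_apply,
      sectionsAddEquiv_apply, Scheme.Modules.Hom.app_smul, he.2]

/-- **`Corr` is invariant under isomorphisms of the module.** -/
theorem corr_of_iso {L L' : (pullback c (specStr k A)).Modules}
    (G : CurveGD k Ch.B₀ Ch.B₁ Ch.B₀₁ A) (hG : Corr Ch A L G) (φ : L' ≅ L) :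
    Corr Ch A L' G := by
  obtain ⟨e₀, e₁, e₀₁, h₀, h₁, h₀₁, hr₀, hr₁⟩ := hG
  refine ⟨(sectionsAddEquiv φ _).trans e₀, (sectionsAddEquiv φ _).trans e₁,
    (sectionsAddEquiv φ _).trans e₀₁, isSectionsIso_of_iso φ _ _ _ h₀,
    isSectionsIso_of_iso φ _ _ _ h₁, isSectionsIso_of_iso φ _ _ _ h₀₁, fun s => ?_, fun s => ?_⟩
  · rw [AddEquiv.trans_apply, AddEquiv.trans_apply, sectionsAddEquiv_apply,
      sectionsAddEquiv_apply, H986.app_resMod, hr₀]
  · rw [AddEquiv.trans_apply, AddEquiv.trans_apply, sectionsAddEquiv_apply,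
      sectionsAddEquiv_apply, H986.app_resMod, hr₁]

end CorrIso

/-! ## `Stmt.DictDeg`, unconditionally (as in `S25/Assembly/Final.lean`) -/

/-- **DICT-DEG** for every chart: `FibrewiseAlgEquivZero` is fibrewise degree zero of the gluing
datum. -/
theorem dictDeg [IsAlgClosed k] [IsProper c] [SmoothOfRelativeDimension 1 c] [IsIntegral C]
    (Ch : ChartOf c ε) : Stmt.DictDeg Ch := by
  have hSheafGlue : Stmt.SheafGlue c ε := H146.sheafGlue k c ε
  have hAA2 : H747.StmtAA2 k Ch.B₀ Ch.B₁ Ch.B₀₁ := H927.stmtAA2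
  have hAA6 : H747.StmtAA6 k Ch.B₀ Ch.B₁ Ch.B₀₁ := H206.stmtAA6 k Ch.B₀ Ch.B₁ Ch.B₀₁
  have hGlue : Stmt.DictGlue Ch := H505.dictGlue Ch
  have hSec : Stmt.DictSections Ch := H505.dictSections Ch
  have hUnit : H687.DictUnit Ch := fun A _ _ => H566.dictUnit Ch A
  have hIso : Stmt.DictIso Ch := H986.dictIso Ch
  have hBC : Stmt.DictBC Ch := H505.dictBC Ch
  have hEx : Stmt.AlgBCExists Ch := H265.algBCExists Ch
  have hId : H687.BCId k Ch.B₀ Ch.B₁ Ch.B₀₁ := fun A _ _ G => H265.curveGD_isBC_id G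
  have hComp : H687.BCComp k Ch.B₀ Ch.B₁ Ch.B₀₁ :=
    fun A A' A'' _ _ _ _ _ _ φ ψ G G' G'' h h' => H265.curveGD_isBC_comp h h'
  have hDegIso : H687.DegIso k Ch.B₀ Ch.B₁ Ch.B₀₁ :=
    fun K _ _ G G' h => H265.degree_eq_of_isIso h
  have hDegConst : H687.DegConst k Ch.B₀ Ch.B₁ Ch.B₀₁ := H550.degConst
  have hAA4 : H747.StmtAA4 k Ch.B₀ Ch.B₁ Ch.B₀₁ := fun x y e hC g A _ _ P 𝔭 h𝔭 =>
    H266.abelDatum_locRig_of_isBC e g A P (fun A' _ _ ψ => hAA2 x y e hC g A A' ψ P) 𝔭 h𝔭
  obtain ⟨𝔉⟩ := H747.algAbel_of_leaves hAA2 hAA4 hAA6 Ch.x Ch.y Ch.e Ch.isCurveChart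
  have hAbelAlg : H687.AbelAlg Ch :=
    H567.abelAlg Ch 𝔉 hSheafGlue (H146.sheafSep k c ε) hGlue hIso hBC
      (fun A _ _ => H566.dictUnit Ch A)
  exact H687.dictDeg_final Ch hSec hIso hBC hEx hUnit hId hComp hDegIso hDegConst hAbelAlg

/-! ## The zero section -/

/-- The Poincaré bundle pulled back along the zero section, over any base map `s = 𝟙`, is
trivial. -/
theorem nonempty_iso_zero {D : RelativePic0Designation k c}
    (hrep : RepresentsRelSubPic c ε (algEquivZeroCut c ε) D)
    (s : Spec (CommRingCat.of k) ⟶ Spec (CommRingCat.of k)) (hs : s = 𝟙 _)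
    (z : SchemeHomOver s D.toBase) (hz : z.1 = D.zeroSection) :
    Nonempty ((hrep.poincare.pullbackAlong z).L ≅
      (RigidifiedLineBundle.unit (c := c) (ε := ε) s).L) := by
  subst hs
  have hz' : z = ⟨D.zeroSection, D.zeroSection_toBase⟩ := Subtype.ext hz
  subst hz'
  exact hrep.zero

theorem specStr_self : specStr k k = 𝟙 (Spec (CommRingCat.of k)) := by
  rw [specStr, Algebra.algebraMap_self]
  exact Spec.map_id _

/-! ## The leaf -/

/-- **PTS-DICT-A.** -/
theorem ptsDictA (k : Type u) [Field k] : Dim.Stmt.PtsDictA k := by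
  intro _ C c _ _ _ ε Ch D hrep
  have hSec : Stmt.DictSections Ch := H505.dictSections Ch
  have hGlue : Stmt.DictGlue Ch := H505.dictGlue Ch
  have hIso : Stmt.DictIso Ch := H986.dictIso Ch
  have hBC : Stmt.DictBC Ch := H505.dictBC Ch
  have hDeg : Stmt.DictDeg Ch := dictDeg Ch
  refine ⟨fun A _ _ t => ?_, fun A _ _ G hrig hdeg => ?_, fun A _ _ t t' G G' hG hG' => ?_,
    fun A A' _ _ _ _ φ t G G' hG hbc => ?_, ?_⟩
  · obtain ⟨G, hG, -⟩ := hSec A (hrep.poincare.pullbackAlong t)
    exact ⟨G, hG⟩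
  · obtain ⟨M, hM⟩ := hGlue A G hrig
    have hfaez : FibrewiseAlgEquivZero M := (hDeg A M G hM).mpr hdeg
    refine ⟨hrep.classify (specStr k A) M hfaez, ?_⟩
    obtain ⟨φ⟩ := hrep.classify_spec (specStr k A) M hfaez
    exact corr_of_iso Ch G hM φ
  · constructor
    · rintro rfl
      exact (hIso A _ _ G G' hG hG').mp ⟨Iso.refl _⟩
    · intro h
      exact hrep.ext_of_iso (specStr k A) t t' ((hIso A _ _ G G' hG hG').mpr h)
  · have h1 := hBC A A' φ (hrep.poincare.pullbackAlong t) G G' hG hbc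
    exact corr_of_iso Ch G' h1 (H927.pullbackAlongCompIso hrep.poincare t (specHomOver k φ)).symm
  · obtain ⟨φ⟩ := nonempty_iso_zero hrep (specStr k k) specStr_self (zeroPt D) rfl
    exact corr_of_iso Ch _ (H566.dictUnit Ch k) φ

end

end Fermat.Agent.S27.H446
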